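import Fermat.Agent.S17.H500.Package
import Mathlib.Tactic

/-!
# S17 / tower H, formal leaf F-POS (helper934): the positivity inequality

`pos : P.WDStatement q → P.EllStatement l → P.KeyStatement → P.PosStatement q l`
for an arbitrary pairing package `P` (architect helper500, `H500/Package.lean`).

Proof.  For `x : A` pick good representatives `D₁`, `D` of degree `d` with `D` disjoint from `D₁`
(`mov1`), and a small section `a` through `D` (`mink`), `Z a = D + D'`.  Then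
`N D + N D' = N (Z a) ≤ m ht a + C ≤ (m/k) (Pl D + C) ≤ (m/k) (N D - δ D + C')` (`bez`, `vdm`), and
`N D - δ D ≤ (q x - l x / 2) + (k/m) N D + C''` by the key formula, `WD` and `Ell`; the `N D` terms
cancel.
-/

set_option autoImplicit false

namespace Fermat.Agent.S17.H934

open Fermat.Agent.S17.H500

variable {A : Type} [AddCommGroup A]

/-- **F-POS.** -/
theorem pos (P : PairingPackage A) (q l : A → ℝ) (hq : P.WDStatement q)
    (hl : P.EllStatement l) (hKey : P.KeyStatement) : P.PosStatement q l := by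
  obtain ⟨Cq, hq⟩ := hq
  obtain ⟨⟨Cl, hl⟩, -⟩ := hl
  obtain ⟨Ck, hKey⟩ := hKey
  obtain ⟨Cb, hbez⟩ := P.bez
  obtain ⟨Cv, hvdm⟩ := P.vdm
  obtain ⟨Cm, hmink⟩ := P.mink
  -- numerics
  have hg : (1 : ℝ) ≤ P.g := by exact_mod_cast P.one_le_g
  have hgd : (2 : ℝ) * P.g ≤ P.d := by exact_mod_cast P.two_g_le_d
  have hdm : (4 : ℝ) * P.d + 2 * P.g ≤ P.m := by exact_mod_cast P.four_d_le_m
  have hm : (0 : ℝ) < P.m := by linarith
  have hk : (0 : ℝ) < P.k := by unfold PairingPackage.k; linarith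
  have hkdef : P.k = (P.m : ℝ) - P.d + 1 - P.g := rfl
  have hmk : (0 : ℝ) ≤ P.m / P.k := (div_pos hm hk).le
  refine ⟨P.m / P.k * (Cv + Cm + (Cq + Cl / 2 + Ck)) + Cb, fun x => ?_⟩
  obtain ⟨D₁, hD₁deg, hD₁cls, -, hD₁good⟩ := P.mov1 x 0
  obtain ⟨D, hDdeg, hDcls, hDdisj, hDgood⟩ := P.mov1 x D₁
  obtain ⟨a, D', hZ, hht⟩ := hmink D hDgood hDdeg
  have hdegZ := P.deg_Z a
  rw [hZ, map_add, hDdeg] at hdegZ
  have hclsZ := P.cls_Z a
  rw [hZ, map_add, hDcls] at hclsZ
  refine ⟨D', by omega, eq_neg_of_add_eq_zero_right hclsZ, ?_⟩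
  -- the chain of inequalities
  have h1 : P.N D + P.N D' ≤ P.m * P.ht a + Cb := by
    have := hbez a
    rw [hZ, P.N_add] at this
    have := (abs_le.1 this).2
    linarith
  have h2 : P.k * P.ht a ≤ P.N D - P.δ D + Cv + Cm := by
    have := hvdm D hDgood hDdeg
    rw [hkdef]
    linarith
  have h3 := (abs_le.1 (hKey D D₁ hDdeg hD₁deg (hDcls.trans hD₁cls.symm) hDgood hD₁good
    hDdisj)).2
  have h4 := (abs_le.1 (hq x D D₁ hDdeg hD₁deg hDcls hD₁cls hDgood hD₁good hDdisj)).1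
  have h5 := (abs_le.1 (hl x D hDdeg hDcls hDgood)).2
  -- `N D - δ D ≤ (q x - l x / 2) + (k/m) N D + C''`
  have hkm : (1 - (P.d : ℝ) / P.m) * P.N D - ((2 * (P.g : ℝ) - 2) / P.m) * P.N D / 2 =
      P.k / P.m * P.N D := by
    rw [hkdef]
    field_simp
    ring
  have h6 : P.N D - P.δ D ≤ (q x - l x / 2) + P.k / P.m * P.N D + (Cq + Cl / 2 + Ck) := by
    rw [← hkm]
    linarith
  -- `m ht a ≤ (m/k) (N D - δ D + C')`
  have h7 : P.m * P.ht a ≤ P.m / P.k * (P.N D - P.δ D + Cv + Cm) := by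
    have h := mul_le_mul_of_nonneg_left h2 hmk
    have e : P.m / P.k * (P.k * P.ht a) = P.m * P.ht a := by
      field_simp
    rw [e] at h
    exact h
  have h8 : P.m / P.k * (P.N D - P.δ D + Cv + Cm) ≤
      P.m / P.k * ((q x - l x / 2) + P.k / P.m * P.N D + (Cq + Cl / 2 + Ck) + Cv + Cm) :=
    mul_le_mul_of_nonneg_left (by linarith) hmk
  have e9 : P.m / P.k * ((q x - l x / 2) + P.k / P.m * P.N D + (Cq + Cl / 2 + Ck) + Cv + Cm) =
      P.m / P.k * (q x - l x / 2) + P.N D + P.m / P.k * (Cv + Cm + (Cq + Cl / 2 + Ck)) := by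
    field_simp
    ring
  rw [e9] at h8
  linarith

end Fermat.Agent.S17.H934
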